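/-
MAZUR (Track M), package (P) (helper5), part 1: **charts of finite flat group schemes and the
connected part**.

`V` a finite `G_ℚ`-module, `𝔓` a place of `ℚ̄`.  A *chart* (`MzqIsChart 𝔓 m`) is a finite family
`m i : V → ℚ̄` of `𝔓`-integral, `I_𝔓`-equivariant functions which separate the points of `V` and are
stable under the comultiplication up to the `𝔓.P`-algebra `mzqAlg 𝔓 m` they generate (exactly the
hypotheses of `Alpha.alpu_char_mem`, i.e. the output of the ALPHA charts before descent).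

* `mzq_induction` : `mzqAlg 𝔓 m` is spanned over `𝔓.P` by its `I_𝔓`-equivariant elements;
* `mzqRel`, `mzqV0` : the cluster relation and the cluster `V⁰` of `0` (a subgroup);
  `mzqRel_iff_sub_mem`: clusters are the cosets of `V⁰`;
* `mzq_ord` : `τ • x - x ∈ V⁰` for `τ ∈ I_𝔓`; `mzqV0_stable`.
-/
import Fermat.Agent.Lib.Alpha.Unram.Char
import Fermat.Agent.Lib.Mazur.Sel.Obj
import Fermat.Agent.Lib.TW.LF.Unr

set_option autoImplicit false
set_option linter.unusedSectionVars false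
set_option linter.style.haveILetI false

namespace Fermat.Agent.Mazur

open Fermat.Agent.TW Fermat.Agent.S05Lib Fermat.Agent.Alpha

local notation "Qb" => AlgebraicClosure ℚ
local notation "GQ" => (AlgebraicClosure ℚ ≃ₐ[ℚ] AlgebraicClosure ℚ)

variable {V : Type} [AddCommGroup V] [DistribMulAction GQ V] [Finite V] {ι : Type}

/-- a chart of a finite flat group scheme with generic fibre `V`, at the place `𝔓` -/
structure MzqIsChart (𝔓 : FFPlace) (m : ι → V → Qb) : Prop where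
  int : ∀ i x, m i x ∈ 𝔓.P
  eqv : ∀ i, ∀ τ ∈ 𝔓.I, ∀ x, m i (τ • x) = τ (m i x)
  sep : ∀ x y : V, x ≠ y → ∃ i, m i x ≠ m i y
  comul : ∀ i, ∃ (n : ℕ) (a b : Fin n → V → Qb),
    (∀ t, a t ∈ Algebra.adjoin ↥𝔓.P (Set.range m)) ∧
    (∀ t, b t ∈ Algebra.adjoin ↥𝔓.P (Set.range m)) ∧ ∀ x y, m i (x + y) = ∑ t, a t x * b t y

/-- the `𝔓.P`-algebra generated by a chart -/
noncomputable def mzqAlg (𝔓 : FFPlace) (m : ι → V → Qb) : Subalgebra ↥𝔓.P (V → Qb) :=
  Algebra.adjoin ↥𝔓.P (Set.range m)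

/-- `I_𝔓`-equivariant functions -/
def MzqEqv (𝔓 : FFPlace) (k : V → Qb) : Prop := ∀ τ ∈ 𝔓.I, ∀ x, k (τ • x) = τ (k x)

variable {𝔓 : FFPlace} {m : ι → V → Qb}

theorem mzq_gen_mem (i : ι) : m i ∈ mzqAlg 𝔓 m := Algebra.subset_adjoin ⟨i, rfl⟩

/-- sums of elements of the maximal ideal -/
theorem mzq_gt_sum {κ : Type*} (s : Finset κ) (f : κ → Qb) (h : ∀ t ∈ s, 𝔓.v.Gt (f t) 0) :
    𝔓.v.Gt (∑ t ∈ s, f t) 0 := by
  classical
  induction s using Finset.induction_on with
  | empty => rw [Finset.sum_empty]; exact 𝔓.v.gt_zero'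
  | insert a s ha ih =>
    rw [Finset.sum_insert ha]
    exact (h a (Finset.mem_insert_self a s)).add
      (ih fun t ht => h t (Finset.mem_insert_of_mem ht))

/-- sums of integral elements -/
theorem mzq_ge_sum {κ : Type*} (s : Finset κ) (f : κ → Qb) (h : ∀ t ∈ s, 𝔓.v.Ge (f t) 0) :
    𝔓.v.Ge (∑ t ∈ s, f t) 0 := by
  classical
  induction s using Finset.induction_on with
  | empty => rw [Finset.sum_empty]; exact 𝔓.v.ge_zero'
  | insert a s ha ih =>
    rw [Finset.sum_insert ha]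
    exact (h a (Finset.mem_insert_self a s)).add
      (ih fun t ht => h t (Finset.mem_insert_of_mem ht))

/-- the elements of the chart algebra are integral-valued -/
theorem mzq_int (hm : MzqIsChart 𝔓 m) {k : V → Qb} (hk : k ∈ mzqAlg 𝔓 m) (x : V) :
    𝔓.v.Ge (k x) 0 := by
  classical
  letI : Fintype V := Fintype.ofFinite V
  have hle : mzqAlg 𝔓 m ≤ alpuIntFun 𝔓.P := by
    refine Algebra.adjoin_le ?_
    rintro _ ⟨i, rfl⟩
    exact hm.int i
  exact (𝔓.mem_P_iff _).mp (hle hk x)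

/-- the chart algebra is stable under the comultiplication -/
theorem mzq_dec (hm : MzqIsChart 𝔓 m) {k : V → Qb} (hk : k ∈ mzqAlg 𝔓 m) :
    AlpuDec 𝔓.P (mzqAlg 𝔓 m) (fun x y => k (x + y)) := by
  classical
  letI : Fintype V := Fintype.ofFinite V
  induction hk using Algebra.adjoin_induction with
  | mem f hf =>
    obtain ⟨i, rfl⟩ := hf
    exact hm.comul i
  | algebraMap c => exact alpuDec_algebraMap c
  | add f g _ _ hf hg => exact hf.add hg
  | mul f g _ _ hf hg => exact hf.mul hg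

/-- the equivariant elements of the chart algebra are stable under products -/
theorem mzq_monomial (hm : MzqIsChart 𝔓 m) {k : V → Qb}
    (hk : k ∈ Submonoid.closure (Set.range m)) : k ∈ mzqAlg 𝔓 m ∧ MzqEqv 𝔓 k := by
  induction hk using Submonoid.closure_induction with
  | mem f hf =>
    obtain ⟨i, rfl⟩ := hf
    exact ⟨mzq_gen_mem i, hm.eqv i⟩
  | one =>
    refine ⟨(mzqAlg 𝔓 m).one_mem, fun τ _ x => ?_⟩
    simp
  | mul f g _ _ hf hg =>
    refine ⟨(mzqAlg 𝔓 m).mul_mem hf.1 hg.1, fun τ hτ x => ?_⟩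
    rw [Pi.mul_apply, Pi.mul_apply, hf.2 τ hτ, hg.2 τ hτ, map_mul]

/-- **linear induction**: a `𝔓.P`-linear property of functions which holds for the equivariant
elements of the chart algebra holds for all its elements -/
theorem mzq_induction (hm : MzqIsChart 𝔓 m) {Φ : (V → Qb) → Prop} (h0 : Φ 0)
    (hadd : ∀ k k' : V → Qb, Φ k → Φ k' → Φ (k + k'))
    (hsmul : ∀ (o : ↥𝔓.P) (k : V → Qb), Φ k → Φ (o • k))
    (heqv : ∀ k ∈ mzqAlg 𝔓 m, MzqEqv 𝔓 k → Φ k) {k : V → Qb} (hk : k ∈ mzqAlg 𝔓 m) : Φ k := by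
  have h1 : k ∈ (mzqAlg 𝔓 m).toSubmodule := hk
  rw [mzqAlg, Algebra.adjoin_eq_span] at h1
  clear hk
  induction h1 using Submodule.span_induction with
  | mem f hf =>
    obtain ⟨h2, h3⟩ := mzq_monomial hm hf
    exact heqv f h2 h3
  | zero => exact h0
  | add f g _ _ hf hg => exact hadd f g hf hg
  | smul o f _ hf => exact hsmul o f hf

/-! ### The cluster relation -/

/-- two points are in the same cluster: the chart functions do not separate them modulo `𝔓` -/
def mzqRel (𝔓 : FFPlace) (m : ι → V → Qb) (x y : V) : Prop := ∀ i, 𝔓.v.Gt (m i x - m i y) 0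

theorem mzqRel.refl (x : V) : mzqRel 𝔓 m x x := fun i => by
  rw [sub_self]; exact 𝔓.v.gt_zero'

theorem mzqRel.symm {x y : V} (h : mzqRel 𝔓 m x y) : mzqRel 𝔓 m y x := fun i => by
  have := (h i).neg
  rwa [neg_sub] at this

theorem mzqRel.trans {x y z : V} (h : mzqRel 𝔓 m x y) (h' : mzqRel 𝔓 m y z) :
    mzqRel 𝔓 m x z := fun i => by
  have := (h i).add (h' i)
  rwa [sub_add_sub_cancel] at this

/-- the cluster relation extends to the chart algebra -/
theorem mzqRel.alg (hm : MzqIsChart 𝔓 m) {x y : V} (h : mzqRel 𝔓 m x y) {k : V → Qb}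
    (hk : k ∈ mzqAlg 𝔓 m) : 𝔓.v.Gt (k x - k y) 0 := by
  induction hk using Algebra.adjoin_induction with
  | mem f hf =>
    obtain ⟨i, rfl⟩ := hf
    exact h i
  | algebraMap c =>
    have : (algebraMap ↥𝔓.P (V → Qb) c) x - (algebraMap ↥𝔓.P (V → Qb) c) y = 0 := sub_self _
    rw [this]
    exact 𝔓.v.gt_zero'
  | add f g _ _ hf hg =>
    have : (f + g) x - (f + g) y = (f x - f y) + (g x - g y) := by
      simp only [Pi.add_apply]; ring
    rw [this]
    exact hf.add hg
  | mul f g hf' hg' hf hg =>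
    have : (f * g) x - (f * g) y = (f x - f y) * g x + f y * (g x - g y) := by
      simp only [Pi.mul_apply]; ring
    rw [this]
    have h1 : 𝔓.v.Gt ((f x - f y) * g x) 0 := by
      have := hf.mul_ge (mzq_int hm hg' x)
      rwa [add_zero] at this
    have h2 : 𝔓.v.Gt (f y * (g x - g y)) 0 := by
      have := (mzq_int hm hf' y).mul_gt hg
      rwa [add_zero] at this
    exact h1.add h2

/-- congruence of sums of products -/
theorem mzq_gt_sum_mul (hm : MzqIsChart 𝔓 m) {n : ℕ} {a b : Fin n → V → Qb}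
    (ha : ∀ t, a t ∈ mzqAlg 𝔓 m) (hb : ∀ t, b t ∈ mzqAlg 𝔓 m) {x x' y y' : V}
    (hx : mzqRel 𝔓 m x x') (hy : mzqRel 𝔓 m y y') :
    𝔓.v.Gt (∑ t, a t x * b t y - ∑ t, a t x' * b t y') 0 := by
  rw [← Finset.sum_sub_distrib]
  refine mzq_gt_sum _ _ fun t _ => ?_
  have : a t x * b t y - a t x' * b t y' = (a t x - a t x') * b t y + a t x' * (b t y - b t y') := by
    ring
  rw [this]
  have h1 : 𝔓.v.Gt ((a t x - a t x') * b t y) 0 := by
    have := (hx.alg hm (ha t)).mul_ge (mzq_int hm (hb t) y)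
    rwa [add_zero] at this
  have h2 : 𝔓.v.Gt (a t x' * (b t y - b t y')) 0 := by
    have := (mzq_int hm (ha t) x').mul_gt (hy.alg hm (hb t))
    rwa [add_zero] at this
  exact h1.add h2

/-- the cluster relation is compatible with the addition -/
theorem mzqRel.add (hm : MzqIsChart 𝔓 m) {x x' y y' : V} (hx : mzqRel 𝔓 m x x')
    (hy : mzqRel 𝔓 m y y') : mzqRel 𝔓 m (x + y) (x' + y') := fun i => by
  obtain ⟨n, a, b, ha, hb, hab⟩ := hm.comul i
  rw [hab, hab]
  exact mzq_gt_sum_mul hm ha hb hx hy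

theorem mzqRel.nsmul (hm : MzqIsChart 𝔓 m) {x x' : V} (hx : mzqRel 𝔓 m x x') (n : ℕ) :
    mzqRel 𝔓 m (n • x) (n • x') := by
  induction n with
  | zero => rw [zero_nsmul, zero_nsmul]; exact mzqRel.refl _
  | succ n ih => rw [succ_nsmul, succ_nsmul]; exact ih.add hm hx

theorem mzqRel.neg (hm : MzqIsChart 𝔓 m) {x x' : V} (hx : mzqRel 𝔓 m x x') :
    mzqRel 𝔓 m (-x) (-x') := by
  have key : ∀ z : V, -z = (Nat.card V - 1) • z := by
    intro z
    have h1 : Nat.card V • z = 0 := card_nsmul_eq_zero' (G := V)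
    have hpos : 0 < Nat.card V := Nat.card_pos
    have h2 : Nat.card V = (Nat.card V - 1) + 1 := by omega
    rw [h2, succ_nsmul] at h1
    exact (eq_neg_of_add_eq_zero_left h1).symm
  rw [key x, key x']
  exact hx.nsmul hm _

theorem mzqRel.sub (hm : MzqIsChart 𝔓 m) {x x' y y' : V} (hx : mzqRel 𝔓 m x x')
    (hy : mzqRel 𝔓 m y y') : mzqRel 𝔓 m (x - y) (x' - y') := by
  rw [sub_eq_add_neg, sub_eq_add_neg]
  exact hx.add hm (hy.neg hm)

/-- **the connected part**: the cluster of `0` -/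
def mzqV0 (hm : MzqIsChart 𝔓 m) : AddSubgroup V where
  carrier := {x | mzqRel 𝔓 m x 0}
  zero_mem' := mzqRel.refl 0
  add_mem' := by
    intro x y hx hy
    have := mzqRel.add hm hx hy
    rwa [add_zero] at this
  neg_mem' := by
    intro x hx
    have := mzqRel.neg hm hx
    rwa [neg_zero] at this

theorem mem_mzqV0 (hm : MzqIsChart 𝔓 m) {x : V} :
    x ∈ mzqV0 hm ↔ ∀ i, 𝔓.v.Gt (m i x - m i 0) 0 := Iff.rfl

/-- the clusters are the cosets of the connected part -/
theorem mzqRel_iff_sub_mem (hm : MzqIsChart 𝔓 m) {x y : V} :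
    mzqRel 𝔓 m x y ↔ x - y ∈ mzqV0 hm := by
  constructor
  · intro h
    have := h.sub hm (mzqRel.refl y)
    rwa [sub_self] at this
  · intro h
    have h1 : mzqRel 𝔓 m (x - y) 0 := h
    have := h1.add hm (mzqRel.refl y)
    rwa [sub_add_cancel, zero_add] at this

/-- elements of the chart algebra are constant modulo `𝔓` on the cosets of the connected part -/
theorem mzq_congr (hm : MzqIsChart 𝔓 m) {x y : V} (h : x - y ∈ mzqV0 hm) {k : V → Qb}
    (hk : k ∈ mzqAlg 𝔓 m) : 𝔓.v.Gt (k x - k y) 0 :=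
  ((mzqRel_iff_sub_mem hm).mpr h).alg hm hk

/-- **the inertia group acts trivially on `V / V⁰`** -/
theorem mzq_ord (hm : MzqIsChart 𝔓 m) {τ : GQ} (hτ : τ ∈ 𝔓.I) (x : V) :
    τ • x - x ∈ mzqV0 hm := by
  rw [← mzqRel_iff_sub_mem]
  intro i
  rw [hm.eqv i τ hτ]
  exact 𝔓.gt_I_sub hτ ((𝔓.mem_P_iff _).mp (hm.int i x))

/-- the connected part is stable under the inertia group -/
theorem mzqV0_stable (hm : MzqIsChart 𝔓 m) {τ : GQ} (hτ : τ ∈ 𝔓.I) {x : V}
    (hx : x ∈ mzqV0 hm) : τ • x ∈ mzqV0 hm := by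
  have h1 := mzq_ord hm hτ x
  have := (mzqV0 hm).add_mem h1 hx
  rwa [sub_add_cancel] at this

end Fermat.Agent.Mazur
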