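/-
MAZUR (Track M), package (P) (helper5), part 2: **the trace divisibility on the connected part**.

`hm : MzqIsChart 𝔓 m` a chart on `V`, `F` a flag of `I_𝔓`-stable subgroups of `V` with steps of index
`𝔓.p`.  Then for every `k` in the chart algebra
  `∑_{x ∈ V⁰} k x ∈ #V⁰ · 𝔓.P`     (`mzq_trace_V0`).
Induction along `B_j = F_j ∩ V⁰`: if `B_{j+1} = ⊔_{l < p} (l r + B_j)`, then for equivariant `h`
the comultiplication and the induction hypothesis give `T_{j+1}(h) = #B_j · S`,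
`S = ∑_l k (l r)` with `k` in the chart algebra; `k (l r) ≡ k 0` modulo `𝔓` (cluster), hence
`S ≡ p · k 0 ≡ 0`; and `S` lies in the inertia field, which is unramified (`FFPlace.lf_unr`), so
`S ∈ p · 𝔓.P`.
-/
import Fermat.Agent.Lib.Mazur.LocP.Chart

set_option autoImplicit false
set_option linter.unusedSectionVars false
set_option linter.unusedVariables false
set_option linter.style.haveILetI false

namespace Fermat.Agent.Mazur

open Fermat.Agent.TW Fermat.Agent.S05Lib Fermat.Agent.Alpha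
open Classical

local notation "Qb" => AlgebraicClosure ℚ
local notation "GQ" => (AlgebraicClosure ℚ ≃ₐ[ℚ] AlgebraicClosure ℚ)

/-! ### Cosets of a subgroup of prime index -/

section Coset

variable {V : Type} [AddCommGroup V] [Finite V]

/-- the cosets of a subgroup `K` of prime index `P` in `L` are `l • r + K`, `l < P` -/
theorem mzq_coset {K L : AddSubgroup V} {P : ℕ} (hP : P.Prime) (hidx : K.relIndex L = P)
    {r : V} (hrL : r ∈ L) (hrK : r ∉ K) :
    (∀ x ∈ L, ∃ l < P, x - l • r ∈ K) ∧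
      ∀ l < P, ∀ l' < P, l • r - l' • r ∈ K → l = l' := by
  haveI : Fact P.Prime := ⟨hP⟩
  set K' : AddSubgroup L := K.addSubgroupOf L with hK'
  have hcard : Nat.card (L ⧸ K') = P := hidx
  set rb : L ⧸ K' := QuotientAddGroup.mk ⟨r, hrL⟩ with hrb_def
  have hrb : rb ≠ 0 := by
    intro h
    rw [hrb_def, QuotientAddGroup.eq_zero_iff] at h
    exact hrK (AddSubgroup.mem_addSubgroupOf.mp h)
  have hPrb : P • rb = 0 := by
    rw [← hcard]
    exact card_nsmul_eq_zero'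
  have hord : addOrderOf rb = P := addOrderOf_eq_prime hPrb hrb
  have htop : AddSubgroup.zmultiples rb = ⊤ := zmultiples_eq_top_of_prime_card hcard hrb
  have hmk : ∀ (x : V) (hx : x ∈ L) (l : ℕ),
      (QuotientAddGroup.mk ⟨x, hx⟩ : L ⧸ K') = l • rb → x - l • r ∈ K := by
    intro x hx l h
    have h1 : (QuotientAddGroup.mk (⟨x, hx⟩ - l • ⟨r, hrL⟩ : L) : L ⧸ K') = 0 := by
      rw [QuotientAddGroup.mk_sub, QuotientAddGroup.mk_nsmul, h, sub_self]
    rw [QuotientAddGroup.eq_zero_iff, hK', AddSubgroup.mem_addSubgroupOf] at h1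
    simpa using h1
  refine ⟨fun x hx => ?_, fun l hl l' hl' h => ?_⟩
  · have h1 : (QuotientAddGroup.mk ⟨x, hx⟩ : L ⧸ K') ∈ AddSubgroup.zmultiples rb := by
      rw [htop]; trivial
    obtain ⟨z, hz⟩ := AddSubgroup.mem_zmultiples_iff.mp h1
    have hPpos : (0 : ℤ) < P := by exact_mod_cast hP.pos
    have h2 : (z % P) • rb = z • rb := by
      rw [zsmul_eq_zsmul_iff_modEq, hord]
      exact Int.mod_modEq z P
    have h3 : ((z % P).toNat : ℤ) = z % P := Int.toNat_of_nonneg (Int.emod_nonneg z hPpos.ne')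
    refine ⟨(z % P).toNat, ?_, hmk x hx _ ?_⟩
    · have h4 : z % P < P := Int.emod_lt_of_pos z hPpos
      omega
    · rw [← hz, ← h2, ← h3, natCast_zsmul, h3]
  · have h1 : l • rb = l' • rb := by
      have h2 : (QuotientAddGroup.mk (l • ⟨r, hrL⟩ - l' • ⟨r, hrL⟩ : L) : L ⧸ K') = 0 := by
        rw [QuotientAddGroup.eq_zero_iff, hK', AddSubgroup.mem_addSubgroupOf]
        simpa using h
      rw [QuotientAddGroup.mk_sub, QuotientAddGroup.mk_nsmul, QuotientAddGroup.mk_nsmul,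
        sub_eq_zero] at h2
      exact h2
    have h3 := nsmul_injOn_Iio_addOrderOf (x := rb)
    rw [hord] at h3
    exact h3 (Set.mem_Iio.mpr hl) (Set.mem_Iio.mpr hl') h1

end Coset

/-! ### Finite sums over subgroups -/

section Sum

variable {V : Type} [AddCommGroup V] [Fintype V]

/-- the elements of a subgroup, as a finset -/
noncomputable def mzqFin (B : AddSubgroup V) : Finset V := Finset.univ.filter (fun x => x ∈ B)

@[simp] theorem mem_mzqFin {B : AddSubgroup V} {x : V} : x ∈ mzqFin B ↔ x ∈ B := by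
  simp [mzqFin]

theorem card_mzqFin (B : AddSubgroup V) : (mzqFin B).card = Nat.card B := by
  rw [Nat.card_eq_fintype_card, Fintype.card_subtype]
  rfl

/-- decomposition of a sum over a subgroup along the cosets `l • r + B'`, `l < P` -/
theorem mzq_sum_coset {M : Type*} [AddCommMonoid M] {B' B : AddSubgroup V} (hB'B : B' ≤ B)
    {P : ℕ} {r : V} (hr : r ∈ B) (hsurj : ∀ x ∈ B, ∃ l < P, x - l • r ∈ B')
    (hinj : ∀ l < P, ∀ l' < P, l • r - l' • r ∈ B' → l = l') (f : V → M) :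
    ∑ x ∈ mzqFin B, f x = ∑ l ∈ Finset.range P, ∑ a ∈ mzqFin B', f (l • r + a) := by
  rw [← Finset.sum_product']
  symm
  refine Finset.sum_bij (fun p _ => p.1 • r + p.2) ?_ ?_ ?_ ?_
  · intro p hp
    rw [Finset.mem_product, Finset.mem_range, mem_mzqFin] at hp
    rw [mem_mzqFin]
    exact B.add_mem (B.nsmul_mem hr _) (hB'B hp.2)
  · intro p hp q hq h
    rw [Finset.mem_product, Finset.mem_range, mem_mzqFin] at hp hq
    have h1 : p.1 • r - q.1 • r = q.2 - p.2 := by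
      have h2 : p.1 • r + p.2 = q.1 • r + q.2 := h
      rw [sub_eq_sub_iff_add_eq_add, add_comm (q.2), ← h2]
    have h3 : p.1 = q.1 := hinj _ hp.1 _ hq.1 (by rw [h1]; exact B'.sub_mem hq.2 hp.2)
    have h4 : p.2 = q.2 := by
      have h2 : p.1 • r + p.2 = q.1 • r + q.2 := h
      rw [h3] at h2
      exact add_left_cancel h2
    exact Prod.ext h3 h4
  · intro x hx
    rw [mem_mzqFin] at hx
    obtain ⟨l, hl, hxl⟩ := hsurj x hx
    refine ⟨(l, x - l • r), ?_, ?_⟩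
    · rw [Finset.mem_product, Finset.mem_range, mem_mzqFin]
      exact ⟨hl, hxl⟩
    · show l • r + (x - l • r) = x
      abel
  · intro p _
    rfl

/-- the order of the bigger subgroup -/
theorem mzq_card_coset {B' B : AddSubgroup V} (hB'B : B' ≤ B)
    {P : ℕ} {r : V} (hr : r ∈ B) (hsurj : ∀ x ∈ B, ∃ l < P, x - l • r ∈ B')
    (hinj : ∀ l < P, ∀ l' < P, l • r - l' • r ∈ B' → l = l') :
    Nat.card B = P * Nat.card B' := by
  have h := mzq_sum_coset hB'B hr hsurj hinj (fun _ => (1 : ℕ))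
  simp only [Finset.sum_const, smul_eq_mul, mul_one, Finset.card_range] at h
  rw [← card_mzqFin, ← card_mzqFin, h]

end Sum

/-! ### The trace claim -/

section Trace

variable {V : Type} [AddCommGroup V] [DistribMulAction GQ V] [Fintype V] {ι : Type}
variable {𝔓 : FFPlace} {m : ι → V → Qb}

/-- the trace of a function over a subgroup -/
noncomputable def mzqTr (B : AddSubgroup V) (k : V → Qb) : Qb := ∑ x ∈ mzqFin B, k x

/-- the trace of every element of the chart algebra over `B` is divisible by `#B` -/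
def MzqTrInt (hm : MzqIsChart 𝔓 m) (B : AddSubgroup V) : Prop :=
  ∀ k ∈ mzqAlg 𝔓 m, ∃ o : Qb, 𝔓.v.Ge o 0 ∧ mzqTr B k = (Nat.card B : Qb) * o

theorem mzqTr_add (B : AddSubgroup V) (k k' : V → Qb) :
    mzqTr B (k + k') = mzqTr B k + mzqTr B k' := by
  simp only [mzqTr, Pi.add_apply, Finset.sum_add_distrib]

theorem mzqTr_smul (B : AddSubgroup V) (o : ↥𝔓.P) (k : V → Qb) :
    mzqTr B (o • k) = (o : Qb) * mzqTr B k := by
  simp only [mzqTr, Finset.mul_sum]
  rfl

/-- the trace over an inertia-stable subgroup of an equivariant function lies in the inertia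
field -/
theorem mzqTr_fixed {B : AddSubgroup V} (hB : ∀ τ ∈ 𝔓.I, ∀ x ∈ B, τ • x ∈ B) {h : V → Qb}
    (hh : MzqEqv 𝔓 h) {τ : GQ} (hτ : τ ∈ 𝔓.I) : τ (mzqTr B h) = mzqTr B h := by
  rw [mzqTr, map_sum]
  refine Finset.sum_bij (fun x _ => τ • x) ?_ ?_ ?_ ?_
  · intro x hx
    rw [mem_mzqFin] at hx ⊢
    exact hB τ hτ x hx
  · intro x _ y _ hxy
    exact smul_left_cancel τ hxy
  · intro y hy
    rw [mem_mzqFin] at hy
    refine ⟨τ⁻¹ • y, ?_, smul_inv_smul τ y⟩
    rw [mem_mzqFin]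
    exact hB τ⁻¹ (𝔓.I.inv_mem hτ) y hy
  · intro x _
    exact (hh τ hτ x).symm

/-- the base case -/
theorem mzqTrInt_bot (hm : MzqIsChart 𝔓 m) : MzqTrInt hm (⊥ : AddSubgroup V) := by
  intro k hk
  refine ⟨k 0, mzq_int hm hk 0, ?_⟩
  have h1 : mzqFin (⊥ : AddSubgroup V) = {0} := by
    ext x
    rw [mem_mzqFin, Finset.mem_singleton, AddSubgroup.mem_bot]
  rw [mzqTr, h1, Finset.sum_singleton, AddSubgroup.card_bot, Nat.cast_one, one_mul]

/-- **the induction step** -/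
theorem mzqTrInt_step (hm : MzqIsChart 𝔓 m) {B' B : AddSubgroup V} (hB'B : B' ≤ B)
    (hBV0 : B ≤ mzqV0 hm) (hB : ∀ τ ∈ 𝔓.I, ∀ x ∈ B, τ • x ∈ B)
    {r : V} (hr : r ∈ B) (hsurj : ∀ x ∈ B, ∃ l < 𝔓.p, x - l • r ∈ B')
    (hinj : ∀ l < 𝔓.p, ∀ l' < 𝔓.p, l • r - l' • r ∈ B' → l = l')
    (hIH : MzqTrInt hm B') : MzqTrInt hm B := by
  have hcard : Nat.card B = 𝔓.p * Nat.card B' := mzq_card_coset hB'B hr hsurj hinj
  have hcard'pos : 0 < Nat.card B' := Nat.card_pos
  have hcard'ne : ((Nat.card B' : ℕ) : Qb) ≠ 0 := by exact_mod_cast hcard'pos.ne'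
  intro k hk
  refine mzq_induction hm (Φ := fun k => ∃ o : Qb, 𝔓.v.Ge o 0 ∧
    mzqTr B k = (Nat.card B : Qb) * o) ?_ ?_ ?_ ?_ hk
  · exact ⟨0, 𝔓.v.ge_zero', by simp [mzqTr]⟩
  · rintro k k' ⟨o, ho, hk⟩ ⟨o', ho', hk'⟩
    exact ⟨o + o', ho.add ho', by rw [mzqTr_add, hk, hk', mul_add]⟩
  · rintro c k ⟨o, ho, hk⟩
    refine ⟨(c : Qb) * o, ?_, by rw [mzqTr_smul, hk]; ring⟩
    have := ((𝔓.mem_P_iff _).mp c.2).mul ho
    rwa [add_zero] at this
  · -- the equivariant case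
    intro h hh hheq
    obtain ⟨n, a, b, ha, hb, hab⟩ := mzq_dec hm hh
    have hIH' : ∀ t, ∃ o : Qb, 𝔓.v.Ge o 0 ∧ mzqTr B' (b t) = (Nat.card B' : Qb) * o :=
      fun t => hIH (b t) (hb t)
    choose o ho hob using hIH'
    -- the function `k = ∑ o_t a_t`
    set k' : V → Qb := fun x => ∑ t, o t * a t x with hk'
    have hk'mem : k' ∈ mzqAlg 𝔓 m := by
      have h1 : k' = ∑ t, (⟨o t, (𝔓.mem_P_iff _).mpr (ho t)⟩ : ↥𝔓.P) • a t := by
        funext x
        rw [hk', Finset.sum_apply]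
        rfl
      rw [h1]
      exact (mzqAlg 𝔓 m).sum_mem fun t _ => (mzqAlg 𝔓 m).smul_mem (ha t) _
    -- the trace as `#B' · S`
    set S : Qb := ∑ l ∈ Finset.range 𝔓.p, k' (l • r) with hS
    have hTr : mzqTr B h = (Nat.card B' : Qb) * S := by
      rw [mzqTr, mzq_sum_coset hB'B hr hsurj hinj, hS, Finset.mul_sum]
      refine Finset.sum_congr rfl fun l _ => ?_
      have h1 : ∀ x ∈ mzqFin B', h (l • r + x) = ∑ t, a t (l • r) * b t x := fun x _ => hab _ _
      rw [Finset.sum_congr rfl h1, Finset.sum_comm, hk', Finset.mul_sum]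
      refine Finset.sum_congr rfl fun t _ => ?_
      rw [← Finset.mul_sum]
      have h2 : ∑ x ∈ mzqFin B', b t x = (Nat.card B' : Qb) * o t := hob t
      rw [h2]
      ring
    -- `S` lies in the maximal ideal
    have hSgt : 𝔓.v.Gt S 0 := by
      have h1 : S = ∑ l ∈ Finset.range 𝔓.p, (k' (l • r) - k' 0) + (𝔓.p : Qb) * k' 0 := by
        rw [hS, Finset.sum_sub_distrib, Finset.sum_const, Finset.card_range, nsmul_eq_mul]
        ring
      rw [h1]
      refine (mzq_gt_sum _ _ fun l _ => ?_).add ?_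
      · refine mzq_congr hm ?_ hk'mem
        rw [sub_zero]
        exact hBV0 (B.nsmul_mem hr l)
      · have := (𝔓.is_p.gt (by norm_num : (0 : ℚ) < 1)).mul_ge (mzq_int hm hk'mem 0)
        rwa [add_zero] at this
    -- `S` lies in the inertia field
    have hSK0 : S ∈ 𝔓.K0 := by
      rw [𝔓.mem_K0_iff]
      intro τ hτ
      have h1 : S = ((Nat.card B' : ℕ) : Qb)⁻¹ * mzqTr B h := by
        rw [hTr, ← mul_assoc, inv_mul_cancel₀ hcard'ne, one_mul]
      rw [h1, map_mul, map_inv₀, map_natCast, mzqTr_fixed hB hheq hτ]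
    -- unramifiedness
    have hSge : 𝔓.v.Ge S 1 := by
      rcases eq_or_ne S 0 with h0 | h0
      · exact Or.inl h0
      · obtain ⟨z, hz⟩ := 𝔓.lf_unr S hSK0 h0
        rcases hSgt with h1 | h1
        · exact absurd h1 h0
        · refine Or.inr ?_
          rw [hz] at h1 ⊢
          have h2 : (0 : ℤ) < z := by exact_mod_cast h1
          have h3 : (1 : ℤ) ≤ z := h2
          exact_mod_cast h3
    refine ⟨S / (𝔓.p : Qb), ?_, ?_⟩
    · have := hSge.div_is 𝔓.is_p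
      rwa [sub_self] at this
    · rw [hTr, hcard]
      push_cast
      field_simp [𝔓.p_ne_zero]

/-- **the trace claim along a flag**: `∑_{x ∈ F_j ∩ V⁰} k x ∈ #(F_j ∩ V⁰) · 𝔓.P` -/
theorem mzq_trace_flag (hm : MzqIsChart 𝔓 m) (n : ℕ) (F : ℕ → AddSubgroup V) (hF0 : F 0 = ⊥)
    (hmono : ∀ j < n, F j ≤ F (j + 1))
    (hstab : ∀ j ≤ n, ∀ τ ∈ 𝔓.I, ∀ x ∈ F j, τ • x ∈ F j)
    (hcard : ∀ j < n, (F j).relIndex (F (j + 1)) = 𝔓.p) :
    ∀ j ≤ n, MzqTrInt hm (F j ⊓ mzqV0 hm) := by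
  intro j
  induction j with
  | zero =>
    intro _
    rw [hF0, bot_inf_eq]
    exact mzqTrInt_bot hm
  | succ j ih =>
    intro hj
    have hjn : j < n := hj
    have hIH := ih hjn.le
    have hle : F j ⊓ mzqV0 hm ≤ F (j + 1) ⊓ mzqV0 hm :=
      inf_le_inf_right _ (hmono j hjn)
    by_cases heq : F (j + 1) ⊓ mzqV0 hm ≤ F j ⊓ mzqV0 hm
    · rw [le_antisymm heq hle]
      exact hIH
    · obtain ⟨r, hrB, hrB'⟩ := SetLike.not_le_iff_exists.mp heq
      have hrF : r ∈ F (j + 1) := (AddSubgroup.mem_inf.mp hrB).1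
      have hrV0 : r ∈ mzqV0 hm := (AddSubgroup.mem_inf.mp hrB).2
      have hrF' : r ∉ F j := fun h => hrB' (AddSubgroup.mem_inf.mpr ⟨h, hrV0⟩)
      obtain ⟨hsurj, hinj⟩ := mzq_coset 𝔓.hp (hcard j hjn) hrF hrF'
      refine mzqTrInt_step hm hle inf_le_right ?_ hrB ?_ ?_ hIH
      · intro τ hτ x hx
        exact AddSubgroup.mem_inf.mpr ⟨hstab (j + 1) hj τ hτ x (AddSubgroup.mem_inf.mp hx).1,
          mzqV0_stable hm hτ (AddSubgroup.mem_inf.mp hx).2⟩
      · intro x hx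
        obtain ⟨l, hl, hxl⟩ := hsurj x (AddSubgroup.mem_inf.mp hx).1
        exact ⟨l, hl, AddSubgroup.mem_inf.mpr ⟨hxl,
          (mzqV0 hm).sub_mem (AddSubgroup.mem_inf.mp hx).2 ((mzqV0 hm).nsmul_mem hrV0 l)⟩⟩
      · intro l hl l' hl' h
        exact hinj l hl l' hl' (AddSubgroup.mem_inf.mp h).1

/-- **the trace claim**: `∑_{x ∈ V⁰} k x ∈ #V⁰ · 𝔓.P` for `k` in the chart algebra -/
theorem mzq_trace_V0 (hm : MzqIsChart 𝔓 m) (n : ℕ) (F : ℕ → AddSubgroup V) (hF0 : F 0 = ⊥)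
    (hFn : F n = ⊤) (hmono : ∀ j < n, F j ≤ F (j + 1))
    (hstab : ∀ j ≤ n, ∀ τ ∈ 𝔓.I, ∀ x ∈ F j, τ • x ∈ F j)
    (hcard : ∀ j < n, (F j).relIndex (F (j + 1)) = 𝔓.p) : MzqTrInt hm (mzqV0 hm) := by
  have h := mzq_trace_flag hm n F hF0 hmono hstab hcard n le_rfl
  rwa [hFn, top_inf_eq] at h

end Trace

end Fermat.Agent.Mazur
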