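/-
MAZUR (Track M), package (P) (helper5), part 3: **the inertia group acts on the connected part
through the cyclotomic character**.

`hm : MzqIsChart 𝔓 m` a chart on `V`, `B ≤ V` an `I_𝔓`-stable subgroup such that the traces over `B` of
the chart algebra are divisible by `#B` (`MzqTrInt hm B`; for `B = V⁰` this is `mzq_trace_V0`).
* `mzq_char_mem` : every character of `B` is the restriction of an element of the chart algebra
  (helper6's `alpu_char_mem`);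
* `mzqCoef B θ k = (1/#B) ∑_{x ∈ B} θ(x)⁻¹ k(x)` is `𝔓`-integral for `k` in the chart algebra;
* `mzq_char_eqv` : `θ (τ x) = τ (θ x)` for every character `θ` of `B` and `τ ∈ I_𝔓`;
* **`mzq_cyc`** : `τ x = e x` on `V⁰`, `e` the cyclotomic exponent of `τ`.
-/
import Fermat.Agent.Lib.Mazur.LocP.Trace

set_option autoImplicit false
set_option linter.unusedSectionVars false
set_option linter.unusedVariables false
set_option linter.style.haveILetI false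

namespace Fermat.Agent.Mazur

open Fermat.Agent.TW Fermat.Agent.S05Lib Fermat.Agent.Alpha
open Classical

local notation "Qb" => AlgebraicClosure ℚ
local notation "GQ" => (AlgebraicClosure ℚ ≃ₐ[ℚ] AlgebraicClosure ℚ)

/-! ### Characters as functions -/

section Char

variable {B : Type*} [AddCommGroup B]

/-- characters of `B` with values in `ℚ̄`, as functions -/
def MzqIsChar (θ : B → Qb) : Prop := θ 0 = 1 ∧ ∀ x y, θ (x + y) = θ x * θ y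

theorem MzqIsChar.ne_zero {θ : B → Qb} (h : MzqIsChar θ) (x : B) : θ x ≠ 0 := by
  intro h0
  have h1 := h.2 x (-x)
  rw [add_neg_cancel, h.1, h0, zero_mul] at h1
  exact one_ne_zero h1

theorem MzqIsChar.inv {θ : B → Qb} (h : MzqIsChar θ) : MzqIsChar (fun x => (θ x)⁻¹) :=
  ⟨by show (θ 0)⁻¹ = 1; rw [h.1, inv_one], fun x y => by
    show (θ (x + y))⁻¹ = (θ x)⁻¹ * (θ y)⁻¹
    rw [h.2, mul_inv]⟩

theorem MzqIsChar.mul {θ θ' : B → Qb} (h : MzqIsChar θ) (h' : MzqIsChar θ') :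
    MzqIsChar (fun x => θ x * θ' x) :=
  ⟨by show θ 0 * θ' 0 = 1; rw [h.1, h'.1, mul_one], fun x y => by
    show θ (x + y) * θ' (x + y) = θ x * θ' x * (θ y * θ' y)
    rw [h.2, h'.2]; ring⟩

theorem MzqIsChar.map_nsmul {θ : B → Qb} (h : MzqIsChar θ) (n : ℕ) (x : B) :
    θ (n • x) = θ x ^ n := by
  induction n with
  | zero => rw [zero_nsmul, pow_zero, h.1]
  | succ n ih => rw [succ_nsmul, h.2, ih, pow_succ]

theorem MzqIsChar.map_neg {θ : B → Qb} (h : MzqIsChar θ) (x : B) : θ (-x) = (θ x)⁻¹ := by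
  have h1 := h.2 x (-x)
  rw [add_neg_cancel, h.1] at h1
  exact eq_inv_of_mul_eq_one_right h1.symm

theorem MzqIsChar.map_sub {θ : B → Qb} (h : MzqIsChar θ) (x y : B) : θ (x - y) = θ x / θ y := by
  rw [sub_eq_add_neg, h.2, h.map_neg, div_eq_mul_inv]

theorem MzqIsChar.pow_card [Finite B] {θ : B → Qb} (h : MzqIsChar θ) (x : B) :
    θ x ^ Nat.card B = 1 := by
  rw [← h.map_nsmul, card_nsmul_eq_zero', h.1]

/-- orthogonality: a non-trivial character sums to zero -/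
theorem MzqIsChar.sum_eq_zero [Fintype B] {θ : B → Qb} (h : MzqIsChar θ) {x₀ : B}
    (hx₀ : θ x₀ ≠ 1) : ∑ x, θ x = 0 := by
  have h1 : ∑ x, θ x = θ x₀ * ∑ x, θ x := by
    rw [Finset.mul_sum, ← Equiv.sum_comp (Equiv.addLeft x₀)]
    exact Finset.sum_congr rfl fun x _ => h.2 x₀ x
  have h2 : (1 - θ x₀) * ∑ x, θ x = 0 := by
    rw [sub_mul, one_mul, ← h1, sub_self]
  rcases mul_eq_zero.mp h2 with h3 | h3
  · exact absurd (sub_eq_zero.mp h3).symm hx₀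
  · exact h3

/-- characters separate the points of a finite abelian group -/
theorem mzq_char_sep [Finite B] {a b : B} (h : ∀ θ : B → Qb, MzqIsChar θ → θ a = θ b) : a = b := by
  haveI : NeZero (Monoid.exponent (Multiplicative B)) := ⟨Monoid.exponent_ne_zero_of_finite⟩
  have h1 : ∀ φ : Multiplicative B →* Qbˣ, φ (Multiplicative.ofAdd a) = φ (Multiplicative.ofAdd b) := by
    intro φ
    have h2 : MzqIsChar (fun x : B => ((φ (Multiplicative.ofAdd x) : Qbˣ) : Qb)) := by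
      refine ⟨?_, fun x y => ?_⟩
      · show ((φ (Multiplicative.ofAdd (0 : B)) : Qbˣ) : Qb) = 1
        rw [ofAdd_zero, map_one, Units.val_one]
      · show ((φ (Multiplicative.ofAdd (x + y)) : Qbˣ) : Qb) = _
        rw [ofAdd_add, map_mul, Units.val_mul]
    exact Units.ext (h _ h2)
  have h3 := (CommGroup.forall_apply_eq_apply_iff (G := Multiplicative B) (M := Qb)).mp h1
  exact Multiplicative.ofAdd.injective h3

end Char

/-- the cyclotomic exponent of an automorphism -/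
theorem mzq_exists_cyclo (τ : GQ) {N : ℕ} (hN : 0 < N) :
    ∃ e : ℕ, ∀ ζ : Qb, ζ ^ N = 1 → τ ζ = ζ ^ e := by
  haveI : NeZero N := ⟨hN.ne'⟩
  haveI : NeZero ((N : ℕ) : ℚ) := ⟨by exact_mod_cast hN.ne'⟩
  obtain ⟨ζ₀, hζ₀⟩ := HasEnoughRootsOfUnity.exists_primitiveRoot Qb N
  have h1 : (τ ζ₀) ^ N = 1 := by rw [← map_pow, hζ₀.pow_eq_one, map_one]
  obtain ⟨e, -, he⟩ := hζ₀.eq_pow_of_pow_eq_one h1
  refine ⟨e, fun ζ hζ => ?_⟩
  obtain ⟨a, -, ha⟩ := hζ₀.eq_pow_of_pow_eq_one hζ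
  rw [← ha, map_pow, ← he, ← pow_mul, ← pow_mul, mul_comm]

section Cyc

variable {V : Type} [AddCommGroup V] [DistribMulAction GQ V] [Fintype V] {ι : Type} [Finite ι]
variable {𝔓 : FFPlace} {m : ι → V → Qb}

/-- restriction to a subgroup maps the chart algebra onto the algebra generated by the
restricted chart -/
theorem mzq_map_restrict (B : AddSubgroup V) :
    (mzqAlg 𝔓 m).map (alphPre ↥𝔓.P (Subtype.val : ↥B → V))
      = Algebra.adjoin ↥𝔓.P (Set.range (fun (i : ι) (x : ↥B) => m i (x : V))) := by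
  rw [mzqAlg, AlgHom.map_adjoin, ← Set.range_comp]
  rfl

/-- **every character of a subgroup is the restriction of an element of the chart algebra** -/
theorem mzq_char_mem (hm : MzqIsChart 𝔓 m) (B : AddSubgroup V) {θ : ↥B → Qb}
    (hθ : MzqIsChar θ) : ∃ k ∈ mzqAlg 𝔓 m, ∀ x : ↥B, k (x : V) = θ x := by
  have h1 : θ ∈ Algebra.adjoin ↥𝔓.P (Set.range (fun (i : ι) (x : ↥B) => m i (x : V))) := by
    refine alpu_char_mem 𝔓.P (fun (i : ι) (x : ↥B) => m i (x : V)) (fun i x => hm.int i x) ?_ ?_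
      θ hθ.1 hθ.2
    · intro x y hxy
      obtain ⟨i, hi⟩ := hm.sep (x : V) (y : V) (fun h => hxy (Subtype.ext h))
      exact ⟨i, hi⟩
    · intro i
      obtain ⟨n, a, b, ha, hb, hab⟩ := hm.comul i
      refine ⟨n, fun t (x : ↥B) => a t (x : V), fun t (x : ↥B) => b t (x : V), fun t => ?_,
        fun t => ?_, fun x y => hab _ _⟩
      · rw [← mzq_map_restrict]
        exact ⟨a t, ha t, rfl⟩
      · rw [← mzq_map_restrict]
        exact ⟨b t, hb t, rfl⟩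
  rw [← mzq_map_restrict] at h1
  obtain ⟨k, hk, hkθ⟩ := h1
  exact ⟨k, hk, fun x => congrFun hkθ x⟩

/-- the Fourier coefficient of `k` at the character `θ` of `B` -/
noncomputable def mzqCoef (B : AddSubgroup V) (θ : ↥B → Qb) (k : V → Qb) : Qb :=
  ((Nat.card B : ℕ) : Qb)⁻¹ * ∑ x : ↥B, (θ x)⁻¹ * k (x : V)

theorem mzqTr_eq_sum (B : AddSubgroup V) (f : V → Qb) : mzqTr B f = ∑ x : ↥B, f (x : V) := by
  rw [mzqTr]
  exact Finset.sum_subtype (mzqFin B) (fun x => mem_mzqFin) f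

theorem mzqCoef_add (B : AddSubgroup V) (θ : ↥B → Qb) (k k' : V → Qb) :
    mzqCoef B θ (k + k') = mzqCoef B θ k + mzqCoef B θ k' := by
  simp only [mzqCoef, Pi.add_apply, mul_add, Finset.sum_add_distrib]

theorem mzqCoef_smul (B : AddSubgroup V) (θ : ↥B → Qb) (o : ↥𝔓.P) (k : V → Qb) :
    mzqCoef B θ (o • k) = (o : Qb) * mzqCoef B θ k := by
  have h1 : ∀ x : ↥B, (θ x)⁻¹ * (o • k) (x : V) = (o : Qb) * ((θ x)⁻¹ * k (x : V)) := by
    intro x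
    show (θ x)⁻¹ * ((o : Qb) * k (x : V)) = _
    ring
  simp only [mzqCoef, h1, ← Finset.mul_sum]
  ring

theorem mzqCoef_zero (B : AddSubgroup V) (θ : ↥B → Qb) : mzqCoef B θ 0 = 0 := by
  simp [mzqCoef]

variable {B : AddSubgroup V}

/-- **the Fourier coefficients of the chart algebra are integral** -/
theorem mzqCoef_int (hm : MzqIsChart 𝔓 m) (hTr : MzqTrInt hm B) {θ : ↥B → Qb}
    (hθ : MzqIsChar θ) {k : V → Qb} (hk : k ∈ mzqAlg 𝔓 m) : 𝔓.v.Ge (mzqCoef B θ k) 0 := by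
  obtain ⟨kθ, hkθ, hkθ'⟩ := mzq_char_mem hm B hθ.inv
  obtain ⟨o, ho, hTro⟩ := hTr (kθ * k) ((mzqAlg 𝔓 m).mul_mem hkθ hk)
  have hcardne : ((Nat.card B : ℕ) : Qb) ≠ 0 := by
    have : 0 < Nat.card B := Nat.card_pos
    exact_mod_cast this.ne'
  have h1 : mzqCoef B θ k = o := by
    rw [mzqCoef]
    have h2 : ∑ x : ↥B, (θ x)⁻¹ * k (x : V) = mzqTr B (kθ * k) := by
      rw [mzqTr_eq_sum]
      refine Finset.sum_congr rfl fun x _ => ?_
      rw [Pi.mul_apply, hkθ']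
    rw [h2, hTro, ← mul_assoc, inv_mul_cancel₀ hcardne, one_mul]
  rw [h1]
  exact ho

/-- the twist of a character by an inertia element -/
noncomputable def mzqTw (hB : ∀ τ ∈ 𝔓.I, ∀ x ∈ B, τ • x ∈ B) (τ : GQ) (hτ : τ ∈ 𝔓.I)
    (θ : ↥B → Qb) : ↥B → Qb :=
  fun y => τ (θ ⟨τ⁻¹ • (y : V), hB τ⁻¹ (𝔓.I.inv_mem hτ) y y.2⟩)

theorem mzqTw_isChar (hB : ∀ τ ∈ 𝔓.I, ∀ x ∈ B, τ • x ∈ B) {τ : GQ} (hτ : τ ∈ 𝔓.I)
    {θ : ↥B → Qb} (hθ : MzqIsChar θ) : MzqIsChar (mzqTw hB τ hτ θ) := by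
  refine ⟨?_, fun x y => ?_⟩
  · show τ (θ ⟨τ⁻¹ • ((0 : ↥B) : V), _⟩) = 1
    have h1 : (⟨τ⁻¹ • ((0 : ↥B) : V), hB τ⁻¹ (𝔓.I.inv_mem hτ) _ (0 : ↥B).2⟩ : ↥B) = 0 :=
      Subtype.ext (by simp)
    rw [h1, hθ.1, map_one]
  · show τ (θ ⟨τ⁻¹ • ((x + y : ↥B) : V), _⟩) = τ (θ ⟨τ⁻¹ • (x : V), _⟩) * τ (θ ⟨τ⁻¹ • (y : V), _⟩)
    have h1 : (⟨τ⁻¹ • ((x + y : ↥B) : V), hB τ⁻¹ (𝔓.I.inv_mem hτ) _ (x + y).2⟩ : ↥B)
        = ⟨τ⁻¹ • (x : V), hB τ⁻¹ (𝔓.I.inv_mem hτ) _ x.2⟩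
          + ⟨τ⁻¹ • (y : V), hB τ⁻¹ (𝔓.I.inv_mem hτ) _ y.2⟩ :=
      Subtype.ext (by simp [smul_add])
    rw [h1, hθ.2, map_mul]

/-- the action of an inertia element on `B`, as a permutation -/
noncomputable def mzqPerm (hB : ∀ τ ∈ 𝔓.I, ∀ x ∈ B, τ • x ∈ B) (τ : GQ) (hτ : τ ∈ 𝔓.I) :
    ↥B ≃ ↥B where
  toFun x := ⟨τ • (x : V), hB τ hτ x x.2⟩
  invFun y := ⟨τ⁻¹ • (y : V), hB τ⁻¹ (𝔓.I.inv_mem hτ) y y.2⟩
  left_inv x := Subtype.ext (inv_smul_smul τ (x : V))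
  right_inv y := Subtype.ext (smul_inv_smul τ (y : V))

/-- the Galois action on the Fourier coefficients of an equivariant function -/
theorem mzqCoef_galois (hB : ∀ τ ∈ 𝔓.I, ∀ x ∈ B, τ • x ∈ B) {τ : GQ} (hτ : τ ∈ 𝔓.I)
    (θ : ↥B → Qb) {h : V → Qb} (hh : MzqEqv 𝔓 h) :
    τ (mzqCoef B θ h) = mzqCoef B (mzqTw hB τ hτ θ) h := by
  rw [mzqCoef, mzqCoef, map_mul, map_inv₀, map_natCast, map_sum]
  congr 1
  have h2 : ∑ y : ↥B, (mzqTw hB τ hτ θ y)⁻¹ * h (y : V)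
      = ∑ x : ↥B, (mzqTw hB τ hτ θ (mzqPerm hB τ hτ x))⁻¹
          * h ((mzqPerm hB τ hτ x : ↥B) : V) :=
    (Equiv.sum_comp (mzqPerm hB τ hτ) _).symm
  rw [h2]
  refine Finset.sum_congr rfl fun x _ => ?_
  rw [map_mul, map_inv₀, ← hh τ hτ]
  show (τ (θ x))⁻¹ * h (τ • (x : V))
    = (τ (θ ⟨τ⁻¹ • (τ • (x : V)), _⟩))⁻¹ * h (τ • (x : V))
  have h1 : (⟨τ⁻¹ • (τ • (x : V)), hB τ⁻¹ (𝔓.I.inv_mem hτ) _ (hB τ hτ x x.2)⟩ : ↥B) = x :=
    Subtype.ext (inv_smul_smul τ (x : V))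
  rw [h1]

/-- the Fourier coefficients at `θ` and at its twist are congruent modulo `𝔓` -/
theorem mzqCoef_congr (hm : MzqIsChart 𝔓 m) (hB : ∀ τ ∈ 𝔓.I, ∀ x ∈ B, τ • x ∈ B)
    (hTr : MzqTrInt hm B) {τ : GQ} (hτ : τ ∈ 𝔓.I) {θ : ↥B → Qb} (hθ : MzqIsChar θ)
    {k : V → Qb} (hk : k ∈ mzqAlg 𝔓 m) :
    𝔓.v.Gt (mzqCoef B (mzqTw hB τ hτ θ) k - mzqCoef B θ k) 0 := by
  refine mzq_induction hm (Φ := fun k =>
    𝔓.v.Gt (mzqCoef B (mzqTw hB τ hτ θ) k - mzqCoef B θ k) 0) ?_ ?_ ?_ ?_ hk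
  · rw [mzqCoef_zero, mzqCoef_zero, sub_zero]
    exact 𝔓.v.gt_zero'
  · intro k k' hk hk'
    rw [mzqCoef_add, mzqCoef_add, add_sub_add_comm]
    exact hk.add hk'
  · intro o k hk
    rw [mzqCoef_smul, mzqCoef_smul, ← mul_sub]
    have := ((𝔓.mem_P_iff _).mp o.2).mul_gt hk
    rwa [add_zero] at this
  · intro h hh hheq
    rw [← mzqCoef_galois hB hτ θ hheq]
    exact 𝔓.gt_I_sub hτ (mzqCoef_int hm hTr hθ hh)

/-- orthogonality of characters, in terms of Fourier coefficients -/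
theorem mzqCoef_self {θ : ↥B → Qb} (hθ : MzqIsChar θ) {k : V → Qb}
    (hk : ∀ x : ↥B, k (x : V) = θ x) : mzqCoef B θ k = 1 := by
  have hcardne : ((Nat.card B : ℕ) : Qb) ≠ 0 := by
    have : 0 < Nat.card B := Nat.card_pos
    exact_mod_cast this.ne'
  rw [mzqCoef]
  have h1 : ∑ x : ↥B, (θ x)⁻¹ * k (x : V) = ((Nat.card B : ℕ) : Qb) := by
    have h2 : ∀ x : ↥B, (θ x)⁻¹ * k (x : V) = 1 := fun x => by
      rw [hk, inv_mul_cancel₀ (hθ.ne_zero x)]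
    rw [Finset.sum_congr rfl fun x _ => h2 x, Finset.sum_const, Finset.card_univ,
      nsmul_eq_mul, mul_one, Nat.card_eq_fintype_card]
  rw [h1, inv_mul_cancel₀ hcardne]

theorem mzqCoef_other {θ θ' : ↥B → Qb} (hθ : MzqIsChar θ) (hθ' : MzqIsChar θ') (hne : θ' ≠ θ)
    {k : V → Qb} (hk : ∀ x : ↥B, k (x : V) = θ x) : mzqCoef B θ' k = 0 := by
  rw [mzqCoef]
  have h1 : ∑ x : ↥B, (θ' x)⁻¹ * k (x : V) = 0 := by
    have h2 : ∀ x : ↥B, (θ' x)⁻¹ * k (x : V) = (θ' x)⁻¹ * θ x := fun x => by rw [hk]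
    rw [Finset.sum_congr rfl fun x _ => h2 x]
    have h3 : ∃ x₀ : ↥B, (θ' x₀)⁻¹ * θ x₀ ≠ 1 := by
      by_contra hcon
      push Not at hcon
      apply hne
      funext x
      have h4 := hcon x
      have h5 := hθ'.ne_zero x
      field_simp at h4
      exact h4.symm
    obtain ⟨x₀, hx₀⟩ := h3
    exact (hθ'.inv.mul hθ).sum_eq_zero hx₀
  rw [h1, mul_zero]

/-- **the characters of `B` are equivariant under the inertia group** -/
theorem mzq_char_eqv (hm : MzqIsChart 𝔓 m) (hB : ∀ τ ∈ 𝔓.I, ∀ x ∈ B, τ • x ∈ B)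
    (hTr : MzqTrInt hm B) {θ : ↥B → Qb} (hθ : MzqIsChar θ) {τ : GQ} (hτ : τ ∈ 𝔓.I) (x : ↥B) :
    θ ⟨τ • (x : V), hB τ hτ x x.2⟩ = τ (θ x) := by
  have key : mzqTw hB τ hτ θ = θ := by
    by_contra hne
    obtain ⟨k, hk, hkθ⟩ := mzq_char_mem hm B hθ
    have h1 := mzqCoef_congr hm hB hTr hτ hθ hk
    rw [mzqCoef_self hθ hkθ, mzqCoef_other hθ (mzqTw_isChar hB hτ hθ) hne hkθ, zero_sub] at h1
    exact 𝔓.v.is_one.neg.not_gt h1 le_rfl
  have h2 := congrFun key ⟨τ • (x : V), hB τ hτ x x.2⟩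
  rw [← h2]
  show τ (θ ⟨τ⁻¹ • (τ • (x : V)), _⟩) = τ (θ x)
  have h1 : (⟨τ⁻¹ • (τ • (x : V)), hB τ⁻¹ (𝔓.I.inv_mem hτ) _ (hB τ hτ x x.2)⟩ : ↥B) = x :=
    Subtype.ext (inv_smul_smul τ (x : V))
  rw [h1]

/-- **(P-cyc) on `B`**: the inertia group acts on `B` through the cyclotomic character -/
theorem mzq_cyc_of_trace (hm : MzqIsChart 𝔓 m) (hB : ∀ τ ∈ 𝔓.I, ∀ x ∈ B, τ • x ∈ B)
    (hTr : MzqTrInt hm B) {τ : GQ} (hτ : τ ∈ 𝔓.I) :
    ∃ e : ℕ, (∀ x ∈ B, τ • x = e • x) ∧ ∀ ζ : Qb, ζ ^ Nat.card V = 1 → τ ζ = ζ ^ e := by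
  obtain ⟨e, he⟩ := mzq_exists_cyclo τ (N := Nat.card V) Nat.card_pos
  refine ⟨e, fun x hx => ?_, he⟩
  have h1 : (⟨τ • x, hB τ hτ x hx⟩ : ↥B) = e • (⟨x, hx⟩ : ↥B) := by
    apply mzq_char_sep
    intro θ hθ
    rw [mzq_char_eqv hm hB hTr hθ hτ ⟨x, hx⟩, hθ.map_nsmul]
    apply he
    have h2 : Nat.card B ∣ Nat.card V := AddSubgroup.card_addSubgroup_dvd_card B
    obtain ⟨d, hd⟩ := h2
    rw [hd, pow_mul, hθ.pow_card, one_pow]
  have h2 := congrArg (fun y : ↥B => (y : V)) h1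
  simpa using h2

end Cyc

end Fermat.Agent.Mazur
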