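/-
MAZUR (Track M), package (P) (helper5), part 4: **peu ramifié**, and the final statements.

`hm : MzqIsChart 𝔓 m` a chart on `V`, `B ≤ V` an `I_𝔓`-stable subgroup containing all `τ x - x`
(`τ ∈ I_𝔓`), with `MzqTrInt hm B` (for `B = V⁰`: `mzq_trace_V0`).  For `x : V` and a character `χ` of
`V` with restriction `θ` to `B`, the `θ`-component
  `mzqComp B θ f y = (1/#B) ∑_{v ∈ B} θ(v)⁻¹ f(y + v)`
preserves the chart algebra, `mzqComp B θ χ = χ`, so some equivariant `h` in the chart algebra has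
`β = mzqComp B θ h x` a `𝔓`-unit, and `τ β = θ (τ x - x) β` for `τ ∈ I_𝔓`.

Final statements (for `[Finite V]` and a flag `F` of `I_𝔓`-stable subgroups with steps of index
`𝔓.p`): **`mzq_cyc`**, **`mzq_peu`** — literally the fields `cyc`, `peu` of `MzsObj`.
-/
import Fermat.Agent.Lib.Mazur.LocP.Cyc
import Fermat.Agent.Lib.TW.Flat.BaseRing

set_option autoImplicit false
set_option linter.unusedSectionVars false
set_option linter.unusedVariables false
set_option linter.style.haveILetI false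

namespace Fermat.Agent.Mazur

open Fermat.Agent.TW Fermat.Agent.S05Lib Fermat.Agent.Alpha
open Classical

local notation "Qb" => AlgebraicClosure ℚ
local notation "GQ" => (AlgebraicClosure ℚ ≃ₐ[ℚ] AlgebraicClosure ℚ)

section Peu

variable {V : Type} [AddCommGroup V] [DistribMulAction GQ V] [Fintype V] {ι : Type} [Finite ι]
variable {𝔓 : FFPlace} {m : ι → V → Qb}

/-- every character of `V` lies in the chart algebra -/
theorem mzq_char_mem_top (hm : MzqIsChart 𝔓 m) {χ : V → Qb} (hχ : MzqIsChar χ) :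
    χ ∈ mzqAlg 𝔓 m :=
  alpu_char_mem 𝔓.P m hm.int hm.sep hm.comul χ hχ.1 hχ.2

/-- the `θ`-component of a function, `θ` a character of the subgroup `B` -/
noncomputable def mzqComp (B : AddSubgroup V) (θ : ↥B → Qb) (f : V → Qb) : V → Qb :=
  fun y => ((Nat.card B : ℕ) : Qb)⁻¹ * ∑ v : ↥B, (θ v)⁻¹ * f (y + (v : V))

theorem mzqComp_add (B : AddSubgroup V) (θ : ↥B → Qb) (f f' : V → Qb) :
    mzqComp B θ (f + f') = mzqComp B θ f + mzqComp B θ f' := by
  funext y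
  simp only [mzqComp, Pi.add_apply, mul_add, Finset.sum_add_distrib]

theorem mzqComp_smul (B : AddSubgroup V) (θ : ↥B → Qb) (o : ↥𝔓.P) (f : V → Qb) :
    mzqComp B θ (o • f) = o • mzqComp B θ f := by
  funext y
  have h1 : ∀ v : ↥B, (θ v)⁻¹ * (o • f) (y + (v : V)) = (o : Qb) * ((θ v)⁻¹ * f (y + (v : V))) := by
    intro v
    show (θ v)⁻¹ * ((o : Qb) * f (y + (v : V))) = _
    ring
  show ((Nat.card B : ℕ) : Qb)⁻¹ * ∑ v : ↥B, (θ v)⁻¹ * (o • f) (y + (v : V))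
    = (o : Qb) * (((Nat.card B : ℕ) : Qb)⁻¹ * ∑ v : ↥B, (θ v)⁻¹ * f (y + (v : V)))
  simp only [h1, ← Finset.mul_sum]
  ring

theorem mzqComp_zero (B : AddSubgroup V) (θ : ↥B → Qb) : mzqComp B θ 0 = 0 := by
  funext y
  simp [mzqComp]

variable {B : AddSubgroup V}

/-- **the components of the chart algebra lie in the chart algebra** -/
theorem mzqComp_mem (hm : MzqIsChart 𝔓 m) (hTr : MzqTrInt hm B) {θ : ↥B → Qb}
    (hθ : MzqIsChar θ) {f : V → Qb} (hf : f ∈ mzqAlg 𝔓 m) : mzqComp B θ f ∈ mzqAlg 𝔓 m := by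
  obtain ⟨n, a, b, ha, hb, hab'⟩ := mzq_dec hm hf
  have hab : ∀ x y : V, f (x + y) = ∑ t, a t x * b t y := hab'
  have h1 : mzqComp B θ f
      = ∑ t, (⟨mzqCoef B θ (b t), (𝔓.mem_P_iff _).mpr (mzqCoef_int hm hTr hθ (hb t))⟩ : ↥𝔓.P)
          • a t := by
    funext y
    rw [Finset.sum_apply]
    show ((Nat.card B : ℕ) : Qb)⁻¹ * ∑ v : ↥B, (θ v)⁻¹ * f (y + (v : V))
      = ∑ t, mzqCoef B θ (b t) * a t y
    have h2 : ∀ v : ↥B, (θ v)⁻¹ * f (y + (v : V)) = ∑ t, a t y * ((θ v)⁻¹ * b t (v : V)) := by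
      intro v
      rw [hab, Finset.mul_sum]
      exact Finset.sum_congr rfl fun t _ => by ring
    rw [Finset.sum_congr rfl fun v _ => h2 v, Finset.sum_comm, Finset.mul_sum]
    refine Finset.sum_congr rfl fun t _ => ?_
    rw [← Finset.mul_sum, mzqCoef]
    ring
  rw [h1]
  exact (mzqAlg 𝔓 m).sum_mem fun t _ => (mzqAlg 𝔓 m).smul_mem (ha t) _

/-- homogeneity of the components -/
theorem mzqComp_translate {θ : ↥B → Qb} (hθ : MzqIsChar θ) (f : V → Qb) (y : V) (v₀ : ↥B) :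
    mzqComp B θ f (y + (v₀ : V)) = θ v₀ * mzqComp B θ f y := by
  rw [mzqComp, mzqComp]
  have h1 : ∑ v : ↥B, (θ v)⁻¹ * f (y + (v₀ : V) + (v : V))
      = ∑ w : ↥B, θ v₀ * ((θ w)⁻¹ * f (y + (w : V))) := by
    rw [← Equiv.sum_comp (Equiv.addLeft v₀) (fun w : ↥B => θ v₀ * ((θ w)⁻¹ * f (y + (w : V))))]
    refine Finset.sum_congr rfl fun v _ => ?_
    show (θ v)⁻¹ * f (y + (v₀ : V) + (v : V)) = θ v₀ * ((θ (v₀ + v))⁻¹ * f (y + ((v₀ + v : ↥B) : V)))
    rw [hθ.2, AddSubgroup.coe_add, add_assoc, mul_inv, ← mul_assoc, ← mul_assoc,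
      mul_inv_cancel₀ (hθ.ne_zero v₀), one_mul]
  rw [h1, ← Finset.mul_sum]
  ring

/-- the component of a character of `V` extending `θ` -/
theorem mzqComp_char {θ : ↥B → Qb} {χ : V → Qb} (hχ : MzqIsChar χ)
    (hθχ : ∀ v : ↥B, θ v = χ (v : V)) : mzqComp B θ χ = χ := by
  funext y
  have hcardne : ((Nat.card B : ℕ) : Qb) ≠ 0 := by
    have : 0 < Nat.card B := Nat.card_pos
    exact_mod_cast this.ne'
  rw [mzqComp]
  have h1 : ∀ v : ↥B, (θ v)⁻¹ * χ (y + (v : V)) = χ y := fun v => by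
    rw [hχ.2, hθχ, mul_comm (χ y), ← mul_assoc, inv_mul_cancel₀ (hχ.ne_zero _), one_mul]
  rw [Finset.sum_congr rfl fun v _ => h1 v, Finset.sum_const, Finset.card_univ, nsmul_eq_mul,
    ← Nat.card_eq_fintype_card, ← mul_assoc, inv_mul_cancel₀ hcardne, one_mul]

/-- the Galois action on the components of an equivariant function -/
theorem mzqComp_galois (hm : MzqIsChart 𝔓 m) (hB : ∀ τ ∈ 𝔓.I, ∀ x ∈ B, τ • x ∈ B)
    (hTr : MzqTrInt hm B) {θ : ↥B → Qb} (hθ : MzqIsChar θ) {h : V → Qb} (hh : MzqEqv 𝔓 h)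
    {τ : GQ} (hτ : τ ∈ 𝔓.I) (y : V) : τ (mzqComp B θ h y) = mzqComp B θ h (τ • y) := by
  rw [mzqComp, mzqComp, map_mul, map_inv₀, map_natCast, map_sum]
  congr 1
  have h2 : ∑ w : ↥B, (θ w)⁻¹ * h (τ • y + (w : V))
      = ∑ v : ↥B, (θ (mzqPerm hB τ hτ v))⁻¹ * h (τ • y + ((mzqPerm hB τ hτ v : ↥B) : V)) :=
    (Equiv.sum_comp (mzqPerm hB τ hτ) _).symm
  rw [h2]
  refine Finset.sum_congr rfl fun v _ => ?_
  rw [map_mul, map_inv₀, ← hh τ hτ, smul_add, ← mzq_char_eqv hm hB hTr hθ hτ v]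
  rfl

/-- **(P-peu)** from the trace claim -/
theorem mzq_peu_of_trace (hm : MzqIsChart 𝔓 m) (hB : ∀ τ ∈ 𝔓.I, ∀ x ∈ B, τ • x ∈ B)
    (hord : ∀ τ ∈ 𝔓.I, ∀ x : V, τ • x - x ∈ B) (hTr : MzqTrInt hm B) (x : V)
    (χ : AddChar V Qb) : MzsUnitKummer 𝔓 (fun g => χ (g • x - x)) := by
  have hχ : MzqIsChar (fun y : V => χ y) :=
    ⟨χ.map_zero_eq_one, fun y z => χ.map_add_eq_mul y z⟩
  set θ : ↥B → Qb := fun v => χ (v : V) with hθdef
  have hθ : MzqIsChar θ :=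
    ⟨χ.map_zero_eq_one, fun y z => χ.map_add_eq_mul (y : V) (z : V)⟩
  have hχmem := mzq_char_mem_top hm hχ
  have hcomp : mzqComp B θ (fun y : V => χ y) = fun y : V => χ y :=
    mzqComp_char hχ (fun v => rfl)
  have hχx : 𝔓.v.Is (χ x) 0 := by
    refine 𝔓.is_zero_of_pow_eq_one (d := Nat.card V) Nat.card_pos ?_
    exact hχ.pow_card x
  -- some equivariant element has a unit component at `x`
  have hex : ∃ h ∈ mzqAlg 𝔓 m, MzqEqv 𝔓 h ∧ 𝔓.v.Is (mzqComp B θ h x) 0 := by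
    by_contra hcon
    push Not at hcon
    have h1 : 𝔓.v.Gt (mzqComp B θ (fun y : V => χ y) x) 0 := by
      refine mzq_induction hm (Φ := fun k => 𝔓.v.Gt (mzqComp B θ k x) 0) ?_ ?_ ?_ ?_ hχmem
      · rw [mzqComp_zero]
        exact 𝔓.v.gt_zero'
      · intro k k' hk hk'
        rw [mzqComp_add]
        exact hk.add hk'
      · intro o k hk
        rw [mzqComp_smul]
        have := ((𝔓.mem_P_iff _).mp o.2).mul_gt hk
        rwa [add_zero] at this
      · intro h hh hheq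
        have h2 := hcon h hh hheq
        have h3 : 𝔓.v.Ge (mzqComp B θ h x) 0 := mzq_int hm (mzqComp_mem hm hTr hθ hh) x
        rcases 𝔓.v.le_or_gt (mzqComp B θ h x) 0 with h4 | h4
        · exfalso
          apply h2
          refine ⟨h4.1, le_antisymm h4.2 ?_⟩
          rcases h3 with h5 | h5
          · exact absurd h5 h4.1
          · exact h5
        · exact h4
    rw [hcomp] at h1
    exact hχx.not_gt h1 le_rfl
  obtain ⟨h, hh, hheq, hβ⟩ := hex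
  refine ⟨mzqComp B θ h x, hβ, fun τ hτ => ?_⟩
  rw [mzqComp_galois hm hB hTr hθ hheq hτ x]
  have h1 : τ • x = x + ((⟨τ • x - x, hord τ hτ x⟩ : ↥B) : V) := by
    show τ • x = x + (τ • x - x)
    abel
  rw [h1, mzqComp_translate hθ h x, mul_div_assoc, div_self hβ.ne_zero, mul_one]

end Peu

/-! ### The final statements -/

section Final

variable {V : Type} [AddCommGroup V] [DistribMulAction GQ V] [Finite V] {ι : Type} [Finite ι]
variable {𝔓 : FFPlace} {m : ι → V → Qb}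

/-- **(P-cyc)**: the inertia group at `𝔓` acts on the connected part through the cyclotomic
character -/
theorem mzq_cyc (hm : MzqIsChart 𝔓 m) (n : ℕ) (F : ℕ → AddSubgroup V) (hF0 : F 0 = ⊥)
    (hFn : F n = ⊤) (hmono : ∀ j < n, F j ≤ F (j + 1))
    (hstab : ∀ j ≤ n, ∀ τ ∈ 𝔓.I, ∀ x ∈ F j, τ • x ∈ F j)
    (hcard : ∀ j < n, (F j).relIndex (F (j + 1)) = 𝔓.p) :
    ∀ τ ∈ 𝔓.I, ∃ e : ℕ, (∀ x ∈ mzqV0 hm, τ • x = e • x) ∧
      ∀ ζ : Qb, ζ ^ Nat.card V = 1 → τ ζ = ζ ^ e := by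
  letI : Fintype V := Fintype.ofFinite V
  intro τ hτ
  exact mzq_cyc_of_trace hm (fun τ hτ x hx => mzqV0_stable hm hτ hx)
    (mzq_trace_V0 hm n F hF0 hFn hmono hstab hcard) hτ

/-- **(P-peu)**: `V` is peu ramifié at `𝔓` -/
theorem mzq_peu (hm : MzqIsChart 𝔓 m) (n : ℕ) (F : ℕ → AddSubgroup V) (hF0 : F 0 = ⊥)
    (hFn : F n = ⊤) (hmono : ∀ j < n, F j ≤ F (j + 1))
    (hstab : ∀ j ≤ n, ∀ τ ∈ 𝔓.I, ∀ x ∈ F j, τ • x ∈ F j)
    (hcard : ∀ j < n, (F j).relIndex (F (j + 1)) = 𝔓.p) (x : V) (χ : AddChar V Qb) :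
    MzsUnitKummer 𝔓 (fun g => χ (g • x - x)) := by
  letI : Fintype V := Fintype.ofFinite V
  exact mzq_peu_of_trace hm (fun τ hτ x hx => mzqV0_stable hm hτ hx)
    (fun τ hτ x => mzq_ord hm hτ x) (mzq_trace_V0 hm n F hF0 hFn hmono hstab hcard) x χ

end Final

end Fermat.Agent.Mazur
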