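/-
MAZUR (Track M), package (P) (helper5), part 5: **restriction of charts**.

A chart `m` on `V` pulls back along an injective additive map `φ : W → V` commuting with the inertia
group `I_𝔓` to the chart `fun i w => m i (φ w)` on `W` (`MzqIsChart.restrict`), and the connected part
of the pull-back is the preimage of the connected part (`mem_mzqV0_restrict`).
-/
import Fermat.Agent.Lib.Mazur.LocP.Chart

set_option autoImplicit false
set_option linter.unusedSectionVars false
set_option linter.style.haveILetI false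

namespace Fermat.Agent.Mazur

open Fermat.Agent.TW Fermat.Agent.S05Lib Fermat.Agent.Alpha

local notation "Qb" => AlgebraicClosure ℚ
local notation "GQ" => (AlgebraicClosure ℚ ≃ₐ[ℚ] AlgebraicClosure ℚ)

variable {V W : Type} [AddCommGroup V] [DistribMulAction GQ V] [Finite V]
  [AddCommGroup W] [DistribMulAction GQ W] [Finite W] {ι : Type}
variable {𝔓 : FFPlace} {m : ι → V → Qb}

/-- pull-back maps the chart algebra into the chart algebra of the pull-back -/
theorem mzq_comp_mem (φ : W → V) {k : V → Qb} (hk : k ∈ Algebra.adjoin ↥𝔓.P (Set.range m)) :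
    (fun w => k (φ w)) ∈ Algebra.adjoin ↥𝔓.P (Set.range (fun (i : ι) (w : W) => m i (φ w))) := by
  have h1 : (Algebra.adjoin ↥𝔓.P (Set.range m)).map (alphPre ↥𝔓.P φ)
      = Algebra.adjoin ↥𝔓.P (Set.range (fun (i : ι) (w : W) => m i (φ w))) := by
    rw [AlgHom.map_adjoin, ← Set.range_comp]
    rfl
  rw [← h1]
  exact ⟨k, hk, rfl⟩

/-- **charts restrict to inertia-stable subgroups** -/
theorem MzqIsChart.restrict (hm : MzqIsChart 𝔓 m) (φ : W →+ V) (hφ : Function.Injective φ)
    (hφI : ∀ τ ∈ 𝔓.I, ∀ w : W, φ (τ • w) = τ • φ w) :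
    MzqIsChart 𝔓 (fun (i : ι) (w : W) => m i (φ w)) where
  int i w := hm.int i (φ w)
  eqv i τ hτ w := by
    show m i (φ (τ • w)) = τ (m i (φ w))
    rw [hφI τ hτ, hm.eqv i τ hτ]
  sep w w' hww' := by
    obtain ⟨i, hi⟩ := hm.sep (φ w) (φ w') (fun h => hww' (hφ h))
    exact ⟨i, hi⟩
  comul i := by
    obtain ⟨n, a, b, ha, hb, hab⟩ := hm.comul i
    refine ⟨n, fun t w => a t (φ w), fun t w => b t (φ w), fun t => mzq_comp_mem φ (ha t),
      fun t => mzq_comp_mem φ (hb t), fun x y => ?_⟩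
    show m i (φ (x + y)) = ∑ t, a t (φ x) * b t (φ y)
    rw [map_add, hab]

/-- the connected part of the pull-back is the preimage of the connected part -/
theorem mem_mzqV0_restrict (hm : MzqIsChart 𝔓 m) (φ : W →+ V) (hφ : Function.Injective φ)
    (hφI : ∀ τ ∈ 𝔓.I, ∀ w : W, φ (τ • w) = τ • φ w) (w : W) :
    w ∈ mzqV0 (hm.restrict φ hφ hφI) ↔ φ w ∈ mzqV0 hm := by
  rw [mem_mzqV0, mem_mzqV0]
  refine forall_congr' fun i => ?_
  show 𝔓.v.Gt (m i (φ w) - m i (φ 0)) 0 ↔ _
  rw [map_zero]

end Fermat.Agent.Mazur
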